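import Mathlib
import Fermat.Prelude.Def_AlgebraicCurve_BaseChangeGalois
import Fermat.Agent.Lib.Red.PlaceRedLocal

/-!
# S27 / (INJ-CENTRE): "`r P` is the centre of `P` on the special fibre", abstractly

`L ⊇ A` a valuation ring with residue map `π : A →+* k`; `F/L`, `Ft/k` fields with places;
`O` a valuation ring of `F` with reduction `red : O →+* Ft`; `r` a map of places.

* `ValAt P f c`   : the function `f` takes the value `c` at the place `P`;
* `IsChart A π O red r S T Tt` : on the chart (`S` a set of functions of `O`, `T` places of the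
  generic fibre, `Tt` places of the special fibre)
  - `ev`  : every `f ∈ S` takes at `P ∈ T` a value `c ∈ A`, and `red f` takes the value `π c`
            at `r P ∈ Tt`;
  - `sep` : the places of `Tt` are separated by the values of the `red f`, `f ∈ S`;
* `IsChart.eq_of_vals`  : `r P` is the unique place of `Tt` with these values;
* `IsChart.residue_eq`  : two places with the same centre have congruent values;
* `IsChart.smul_eq`     : equivariance of `r` under semilinear automorphisms;
* `IsChart.comm`        : compatibility of `r` with a change of the base (commutative square).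
-/

set_option autoImplicit false

noncomputable section

namespace Fermat.Agent.S27P.Inj.Centre

open AlgebraicCurve Fermat.Agent.Lib.Red.PlaceRed

/-! ### Values of functions at places -/

section Val

variable {L F : Type*} [Field L] [Field F] [Algebra L F]

/-- `f` takes the value `c` at the place `P`: `f ≡ c` modulo the maximal ideal of `P`. -/
def ValAt (P : Place L F) (f : F) (c : L) : Prop :=
  P.adicValuation (f - algebraMap L F c) < 1

theorem valAt_algebraMap (P : Place L F) (c : L) : ValAt P (algebraMap L F c) c := by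
  unfold ValAt
  rw [sub_self, map_zero]
  exact zero_lt_one

/-- In terms of `ord`. -/
theorem valAt_iff_ord (P : Place L F) {f : F} {c : L} (hne : f ≠ algebraMap L F c) :
    ValAt P f c ↔ 0 < P.ord (f - algebraMap L F c) :=
  adicValuation_lt_one_iff P (sub_ne_zero.2 hne)

theorem valAt_of_ord_pos (P : Place L F) {f : F} {c : L}
    (h : 0 < P.ord (f - algebraMap L F c)) : ValAt P f c := by
  have hne : f - algebraMap L F c ≠ 0 := by
    intro h0
    rw [h0, Place.ord_zero] at h
    exact lt_irrefl _ h
  exact (adicValuation_lt_one_iff P hne).2 h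

/-- The value of a function at a place is unique. -/
theorem ValAt.unique {P : Place L F} {f : F} {c d : L} (h : ValAt P f c) (h' : ValAt P f d) :
    c = d := by
  have h1 : P.adicValuation (algebraMap L F (c - d)) < 1 := by
    have e : algebraMap L F (c - d) = (f - algebraMap L F d) - (f - algebraMap L F c) := by
      rw [map_sub]; ring
    rw [e]
    exact P.adicValuation.map_sub_lt h' h
  by_contra hne
  rw [adicValuation_algebraMap_eq_one P (sub_ne_zero.2 hne)] at h1
  exact lt_irrefl _ h1

theorem ValAt.add {P : Place L F} {f g : F} {c d : L} (hf : ValAt P f c) (hg : ValAt P g d) :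
    ValAt P (f + g) (c + d) := by
  unfold ValAt at *
  have e : f + g - algebraMap L F (c + d) = (f - algebraMap L F c) + (g - algebraMap L F d) := by
    rw [map_add]; ring
  rw [e]
  exact P.adicValuation.map_add_lt hf hg

theorem ValAt.sub {P : Place L F} {f g : F} {c d : L} (hf : ValAt P f c) (hg : ValAt P g d) :
    ValAt P (f - g) (c - d) := by
  unfold ValAt at *
  have e : f - g - algebraMap L F (c - d) = (f - algebraMap L F c) - (g - algebraMap L F d) := by
    rw [map_sub]; ring
  rw [e]
  exact P.adicValuation.map_sub_lt hf hg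

/-- A function with a value at `P` is regular at `P`. -/
theorem ValAt.le_one {P : Place L F} {f : F} {c : L} (h : ValAt P f c) :
    P.adicValuation f ≤ 1 := by
  have e : f = (f - algebraMap L F c) + algebraMap L F c := by ring
  rw [e]
  exact (P.adicValuation.map_add _ _).trans
    (max_le (le_of_lt h) (P.adicValuation_algebraMap_le_one _))

theorem ValAt.mul {P : Place L F} {f g : F} {c d : L} (hf : ValAt P f c) (hg : ValAt P g d) :
    ValAt P (f * g) (c * d) := by
  have hg1 := hg.le_one
  unfold ValAt at *
  have e : f * g - algebraMap L F (c * d)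
      = (f - algebraMap L F c) * g + algebraMap L F c * (g - algebraMap L F d) := by
    rw [map_mul]; ring
  rw [e]
  refine P.adicValuation.map_add_lt ?_ ?_
  · rw [map_mul]
    exact mul_lt_one_of_lt_of_le hf hg1
  · rw [map_mul]
    exact Right.mul_lt_one_of_le_of_lt (P.adicValuation_algebraMap_le_one _) hg

/-- Semilinear automorphisms preserve the valuations of places. -/
theorem adicValuation_smul (g : SemilinearAut L F) (P : Place L F) (f : F) :
    (g • P).adicValuation (g • f) = P.adicValuation f := by
  rcases eq_or_ne f 0 with rfl | hf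
  · rw [smul_zero, map_zero, map_zero]
  · have hgf : g • f ≠ 0 := by
      rw [SemilinearAut.smul_def]
      exact (map_ne_zero_iff _ (SemilinearAut.toRingAut g).injective).2 hf
    rw [(g • P).adicValuation_eq_exp_neg_ord hgf, P.adicValuation_eq_exp_neg_ord hf,
      SemilinearAut.ord_smul]

/-- Transport of values along a semilinear automorphism. -/
theorem ValAt.smul {P : Place L F} {f : F} {c : L} (h : ValAt P f c) (g : SemilinearAut L F) :
    ValAt (g • P) (g • f) (SemilinearAut.baseAut g c) := by
  unfold ValAt at *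
  have e : g • f - algebraMap L F (SemilinearAut.baseAut g c) = g • (f - algebraMap L F c) := by
    rw [smul_sub, SemilinearAut.smul_algebraMap]
  rw [e, adicValuation_smul]
  exact h

end Val

/-! ### Charts -/

section Chart

variable {L F k Ft : Type*} [Field L] [Field F] [Algebra L F] [Field k] [Field Ft] [Algebra k Ft]

/-- **(R2)+(SEP) on a chart.**  `S` is a set of functions of the Gauss ring `O` (e.g. the
generators of the model ring of the chart), `T` the set of places of the generic fibre whose
centre lies on the chart, `Tt` the set of places of the special fibre on the chart. -/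
structure IsChart (A : ValuationSubring L) (π : A →+* k) (O : ValuationSubring F)
    (red : O →+* Ft) (r : Place L F → Place k Ft) (S : Set O) (T : Set (Place L F))
    (Tt : Set (Place k Ft)) : Prop where
  /-- the chart is stable under reduction -/
  maps : ∀ P ∈ T, r P ∈ Tt
  /-- (R2) every function of `S` takes at `P ∈ T` a value in `A`, and its reduction takes the
  reduced value at `r P` -/
  ev : ∀ P ∈ T, ∀ f ∈ S, ∃ c : A, ValAt P ((f : O) : F) (c : L) ∧ ValAt (r P) (red f) (π c)
  /-- (SEP) the places of the special fibre on the chart are separated by the values of the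
  reductions of the functions of `S` -/
  sep : ∀ Q ∈ Tt, ∀ Q' ∈ Tt,
    (∀ f ∈ S, ∀ γ : k, ValAt Q (red f) γ → ValAt Q' (red f) γ) → Q = Q'

namespace IsChart

variable {A : ValuationSubring L} {π : A →+* k} {O : ValuationSubring F} {red : O →+* Ft}
  {r : Place L F → Place k Ft} {S : Set O} {T : Set (Place L F)} {Tt : Set (Place k Ft)}

/-- **`r P` is the centre of `P`**: it is the unique place of the chart of the special fibre at
which the reductions of the functions of `S` take the reduced values. -/
theorem eq_of_vals (h : IsChart A π O red r S T Tt) {P : Place L F} (hP : P ∈ T)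
    {Q : Place k Ft} (hQ : Q ∈ Tt)
    (hv : ∀ f ∈ S, ∀ c : A, ValAt P ((f : O) : F) (c : L) → ValAt Q (red f) (π c)) :
    r P = Q := by
  refine h.sep (r P) (h.maps P hP) Q hQ fun f hf γ hγ => ?_
  obtain ⟨c, hc, hrc⟩ := h.ev P hP f hf
  have hγc : γ = π c := hγ.unique hrc
  rw [hγc]
  exact hv f hf c hc

/-- The value of `f ∈ S` at `P ∈ T` lies in `A`. -/
theorem exists_eq_of_valAt (h : IsChart A π O red r S T Tt) {P : Place L F} (hP : P ∈ T)
    {f : O} (hf : f ∈ S) {c : L} (hc : ValAt P ((f : O) : F) c) :
    ∃ a : A, (a : L) = c ∧ ValAt (r P) (red f) (π a) := by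
  obtain ⟨a, ha, hra⟩ := h.ev P hP f hf
  exact ⟨a, ha.unique hc, hra⟩

/-- **(b)** Two places of the chart with the same centre have congruent values on `S`. -/
theorem residue_eq (h : IsChart A π O red r S T Tt) {P P' : Place L F} (hP : P ∈ T)
    (hP' : P' ∈ T) (hr : r P = r P') {f : O} (hf : f ∈ S) {c c' : L}
    (hc : ValAt P ((f : O) : F) c) (hc' : ValAt P' ((f : O) : F) c') :
    ∃ a a' : A, (a : L) = c ∧ (a' : L) = c' ∧ π a = π a' := by
  obtain ⟨a, ha, hra⟩ := h.exists_eq_of_valAt hP hf hc
  obtain ⟨a', ha', hra'⟩ := h.exists_eq_of_valAt hP' hf hc'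
  rw [← hr] at hra'
  exact ⟨a, a', ha, ha', hra.unique hra'⟩

/-- **(b), difference form**: `c - c'` lies in `A` and reduces to `0`. -/
theorem sub_mem_ker (h : IsChart A π O red r S T Tt) {P P' : Place L F} (hP : P ∈ T)
    (hP' : P' ∈ T) (hr : r P = r P') {f : O} (hf : f ∈ S) {c c' : L}
    (hc : ValAt P ((f : O) : F) c) (hc' : ValAt P' ((f : O) : F) c') :
    ∃ d : A, (d : L) = c - c' ∧ π d = 0 := by
  obtain ⟨a, a', ha, ha', hπ⟩ := h.residue_eq hP hP' hr hf hc hc'
  refine ⟨a - a', ?_, ?_⟩
  · rw [← ha, ← ha']; rfl
  · rw [map_sub, hπ, sub_self]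

/-- **(c) Equivariance.**  A semilinear automorphism `g` of `F/L` preserving `A`, `S`, `T` and
inducing `gt` on the special fibre commutes with the reduction of places on the chart. -/
theorem smul_eq (h : IsChart A π O red r S T Tt) (g : SemilinearAut L F)
    (gt : SemilinearAut k Ft)
    (hA : ∀ a : A, SemilinearAut.baseAut g (a : L) ∈ A)
    (hπ : ∀ a : A, π ⟨SemilinearAut.baseAut g (a : L), hA a⟩ = SemilinearAut.baseAut gt (π a))
    (hS : ∀ f ∈ S, ∃ f₀ ∈ S, ((f : O) : F) = g • ((f₀ : O) : F) ∧ red f = gt • red f₀)
    (hT : ∀ P ∈ T, g • P ∈ T) (hTt : ∀ Q ∈ Tt, gt • Q ∈ Tt) :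
    ∀ P ∈ T, r (g • P) = gt • r P := by
  intro P hP
  refine h.eq_of_vals (hT P hP) (hTt _ (h.maps P hP)) fun f hf c hc => ?_
  obtain ⟨f₀, hf₀, hff₀, hrf⟩ := hS f hf
  obtain ⟨c₀, hc₀, hrc₀⟩ := h.ev P hP f₀ hf₀
  have h1 : ValAt (g • P) ((f : O) : F) (SemilinearAut.baseAut g (c₀ : L)) := by
    rw [hff₀]
    exact hc₀.smul g
  have hcc : (c : L) = SemilinearAut.baseAut g (c₀ : L) := hc.unique h1
  have hc' : c = ⟨SemilinearAut.baseAut g (c₀ : L), hA c₀⟩ := Subtype.ext hcc
  rw [hc', hπ c₀, hrf]
  exact hrc₀.smul gt

end IsChart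

end Chart

/-! ### Change of base -/

section Square

variable {L F k Ft : Type*} [Field L] [Field F] [Algebra L F] [Field k] [Field Ft] [Algebra k Ft]
variable {L' F' k' Ft' : Type*} [Field L'] [Field F'] [Algebra L' F'] [Field k'] [Field Ft']
  [Algebra k' Ft']
variable {A : ValuationSubring L} {π : A →+* k} {O : ValuationSubring F} {red : O →+* Ft}
  {r : Place L F → Place k Ft} {S : Set O} {T : Set (Place L F)} {Tt : Set (Place k Ft)}
variable {A' : ValuationSubring L'} {π' : A' →+* k'} {O' : ValuationSubring F'}
  {red' : O' →+* Ft'} {r' : Place L' F' → Place k' Ft'} {S' : Set O'} {T' : Set (Place L' F')}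
  {Tt' : Set (Place k' Ft')}

/-- **(a) The base-change square.**  Given two charts, maps of constants `j`, `jt`, of function
fields `ι`, `ιt` and of places `e`, `et` preserving values, such that the functions of `S'` come
from `S`, the reductions of places commute: `r' (e P) = et (r P)`. -/
theorem IsChart.comm (h : IsChart A π O red r S T Tt) (h' : IsChart A' π' O' red' r' S' T' Tt')
    (j : L →+* L') (jt : k →+* k') (ι : F →+* F') (ιt : Ft →+* Ft')
    (e : Place L F → Place L' F') (et : Place k Ft → Place k' Ft')
    (hjA : ∀ a : A, j (a : L) ∈ A')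
    (hjπ : ∀ a : A, π' ⟨j (a : L), hjA a⟩ = jt (π a))
    (he : ∀ (P : Place L F) (f : F) (c : L), ValAt P f c → ValAt (e P) (ι f) (j c))
    (het : ∀ (Q : Place k Ft) (f : Ft) (γ : k), ValAt Q f γ → ValAt (et Q) (ιt f) (jt γ))
    (hS : ∀ f' ∈ S', ∃ f ∈ S, ((f' : O') : F') = ι ((f : O) : F) ∧ red' f' = ιt (red f))
    (heT : ∀ P ∈ T, e P ∈ T') (hetT : ∀ Q ∈ Tt, et Q ∈ Tt') :
    ∀ P ∈ T, r' (e P) = et (r P) := by
  intro P hP
  refine h'.eq_of_vals (heT P hP) (hetT _ (h.maps P hP)) fun f' hf' c' hc' => ?_
  obtain ⟨f, hf, hff, hrf⟩ := hS f' hf'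
  obtain ⟨c, hc, hrc⟩ := h.ev P hP f hf
  have h1 : ValAt (e P) ((f' : O') : F') (j (c : L)) := by
    rw [hff]
    exact he P _ _ hc
  have hcc : (c' : L') = j (c : L) := hc'.unique h1
  have hc'' : c' = ⟨j (c : L), hjA c⟩ := Subtype.ext hcc
  rw [hc'', hjπ c, hrf]
  exact het _ _ _ hrc

end Square

end Fermat.Agent.S27P.Inj.Centre
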