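import Mathlib
import Fermat.Prelude.Def_AlgebraicCurve_BaseChangeGalois
import Fermat.Agent.Lib.Red.OneStepGlue

/-!
# S27 / (INJ), abstract half: the reduction homomorphism on `Pic0`

Setting of `Lib.Red.OneStep.IsRed O red r` (`F/L` and `Ft/k` function fields, `O` the Gauss
valuation ring of `F`, `red : O → Ft`, `r` the place reduction with `r_* div(u) = div(red u)`).

* `redDiv r`            : push-forward of divisors along `r`;
* `redPic0 h hL hk`     : the induced homomorphism `Pic0 L F →+ Pic0 k Ft`, `[D] ↦ [r_* D]`;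
* `redPic0_surjective`  : it is onto when `r` is;
* `GoodRed O red r x`   : exactly the hypothesis list of `OneStepGlue.principal_of_torsion_ff1`
  plus surjectivity of `r` — the literal target of the good-reduction layer;
* `GoodRed.eq_zero_of_redPic0_eq_zero`, `GoodRed.injOn_torsion`, `GoodRed.card_torsion_le` :
  the reduction is injective on torsion of order invertible in `Ft`;
* `redPic0_smul`        : equivariance under semilinear automorphisms commuting with `r`;
* `redPic0_comm`        : compatibility with a commutative square of place maps (base change).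
-/

set_option autoImplicit false

noncomputable section

namespace Fermat.Agent.S27P.Inj.RedPic

open AlgebraicCurve Fermat.Agent.Lib.Red.OneStep Fermat.Agent.Lib.FF

/-! ### Push-forward of divisors along a map of places -/

section Push

variable {L F k Ft : Type*} [Field L] [Field F] [Algebra L F] [Field k] [Field Ft] [Algebra k Ft]

/-- Push-forward of divisors along a map of places. -/
def redDiv (r : Place L F → Place k Ft) : Divisor L F →+ Divisor k Ft :=
  Finsupp.mapDomain.addMonoidHom r

theorem redDiv_apply (r : Place L F → Place k Ft) (D : Divisor L F) :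
    redDiv r D = Finsupp.mapDomain r D := rfl

theorem redDiv_single (r : Place L F → Place k Ft) (P : Place L F) (n : ℤ) :
    redDiv r (Finsupp.single P n) = Finsupp.single (r P) n := by
  rw [redDiv_apply, Finsupp.mapDomain_single]

/-- The push-forward preserves the degree when all places have degree one. -/
theorem degree_redDiv (r : Place L F → Place k Ft) (hL : ∀ P : Place L F, P.deg = 1)
    (hk : ∀ Q : Place k Ft, Q.deg = 1) (D : Divisor L F) :
    Divisor.degree (redDiv r D) = Divisor.degree D := by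
  induction D using Finsupp.induction with
  | zero => simp
  | single_add P n D _ _ ih =>
    rw [map_add, map_add, map_add, ih, redDiv_single, Divisor.degree_single,
      Divisor.degree_single, hL, hk]

/-- The push-forward on divisors of degree zero. -/
def redDegZero (r : Place L F → Place k Ft) (hL : ∀ P : Place L F, P.deg = 1)
    (hk : ∀ Q : Place k Ft, Q.deg = 1) :
    Divisor.degZero (K := L) (F := F) →+ Divisor.degZero (K := k) (F := Ft) :=
  ((redDiv r).comp (Divisor.degZero (K := L) (F := F)).subtype).codRestrict _ (fun D => by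
    rw [Divisor.mem_degZero]
    show Divisor.degree (redDiv r (D : Divisor L F)) = 0
    rw [degree_redDiv r hL hk]
    exact D.2)

@[simp]
theorem coe_redDegZero (r : Place L F → Place k Ft) (hL : ∀ P : Place L F, P.deg = 1)
    (hk : ∀ Q : Place k Ft, Q.deg = 1) (D : Divisor.degZero (K := L) (F := F)) :
    (redDegZero r hL hk D : Divisor k Ft) = Finsupp.mapDomain r (D : Divisor L F) := rfl

end Push

/-! ### The reduction homomorphism on `Pic0` -/

section Red

variable {L F k Ft : Type*} [Field L] [Field F] [Algebra L F] [Field k] [Field Ft] [Algebra k Ft]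
variable {O : ValuationSubring F} {red : O →+* Ft} {r : Place L F → Place k Ft}

/-- The push-forward of a principal divisor is principal: `r_* div(c u) = div(red u)`. -/
theorem redDiv_mem_principal (h : IsRed O red r) {D : Divisor L F}
    (hD : D ∈ Divisor.principal (K := L) (F := F)) :
    redDiv r D ∈ Divisor.principal (K := k) (F := Ft) := by
  obtain ⟨f, hf, hDf⟩ := hD
  obtain ⟨c, u, hcu⟩ := h.scale f hf
  have hc : c ≠ 0 := by
    rintro rfl
    rw [map_zero, zero_mul] at hcu
    exact hf hcu
  have hu0 : ((u : O) : F) ≠ 0 := coe_unit_ne_zero u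
  have hord : ∀ P : Place L F, D P = P.ord (((u : O) : F)) := fun P => by
    rw [hDf P, hcu, P.ord_mul ((map_ne_zero (algebraMap L F)).2 hc) hu0,
      Fermat.Agent.S24.ord_algebraMap, zero_add]
  have hred : red (u : O) ≠ 0 := (u.isUnit.map red).ne_zero
  exact ⟨red (u : O), hred, fun Q => h.spec u D hord Q⟩

/-- **The reduction homomorphism** `Pic0 L F →+ Pic0 k Ft`, `[D] ↦ [r_* D]`. -/
def redPic0 (h : IsRed O red r) (hL : ∀ P : Place L F, P.deg = 1)
    (hk : ∀ Q : Place k Ft, Q.deg = 1) : Pic0 L F →+ Pic0 k Ft :=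
  QuotientAddGroup.map _ _ (redDegZero r hL hk) (by
    rintro ⟨D, hD0⟩ hD
    simp only [AddSubgroup.mem_addSubgroupOf, AddSubgroup.mem_comap] at hD ⊢
    exact redDiv_mem_principal h hD)

theorem redPic0_mk (h : IsRed O red r) (hL : ∀ P : Place L F, P.deg = 1)
    (hk : ∀ Q : Place k Ft, Q.deg = 1) (D : Divisor.degZero (K := L) (F := F)) :
    redPic0 h hL hk (Pic0.mk D) = Pic0.mk (redDegZero r hL hk D) := rfl

/-- The reduction is onto `Pic0` of the special fibre when the place map is onto. -/
theorem redPic0_surjective (h : IsRed O red r) (hL : ∀ P : Place L F, P.deg = 1)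
    (hk : ∀ Q : Place k Ft, Q.deg = 1) (hsurj : Function.Surjective r) :
    Function.Surjective (redPic0 h hL hk) := by
  intro c'
  obtain ⟨D', rfl⟩ := Pic0.mk_surjective c'
  set s : Place k Ft → Place L F := Function.surjInv hsurj with hs
  have hrs : r ∘ s = id := funext fun Q => Function.surjInv_eq hsurj Q
  have hpush : Finsupp.mapDomain r (Finsupp.mapDomain s (D' : Divisor k Ft))
      = (D' : Divisor k Ft) := by
    rw [← Finsupp.mapDomain_comp, hrs, Finsupp.mapDomain_id]
  have hdeg : Finsupp.mapDomain s (D' : Divisor k Ft) ∈ Divisor.degZero (K := L) (F := F) := by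
    rw [Divisor.mem_degZero, ← degree_redDiv r hL hk, redDiv_apply, hpush]
    exact D'.2
  refine ⟨Pic0.mk ⟨_, hdeg⟩, ?_⟩
  rw [redPic0_mk]
  exact congrArg Pic0.mk (Subtype.ext hpush)

/-- Equivariance: if semilinear automorphisms `g` of `F/L` and `gt` of `Ft/k` commute with the
place reduction, they commute with the reduction on `Pic0`. -/
theorem redPic0_smul (h : IsRed O red r) (hL : ∀ P : Place L F, P.deg = 1)
    (hk : ∀ Q : Place k Ft, Q.deg = 1) (g : SemilinearAut L F) (gt : SemilinearAut k Ft)
    (hr : ∀ P : Place L F, r (g • P) = gt • r P) (c : Pic0 L F) :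
    redPic0 h hL hk (g • c) = gt • redPic0 h hL hk c := by
  obtain ⟨D, rfl⟩ := Pic0.mk_surjective c
  rw [SemilinearAut.pic0_smul_mk, redPic0_mk, redPic0_mk, SemilinearAut.pic0_smul_mk]
  refine congrArg Pic0.mk (Subtype.ext ?_)
  rw [coe_redDegZero, SemilinearAut.coe_degZeroSMulHom, SemilinearAut.coe_degZeroSMulHom,
    coe_redDegZero, SemilinearAut.divisor_smul_def, SemilinearAut.divisor_smul_def,
    ← Finsupp.mapDomain_comp, ← Finsupp.mapDomain_comp]
  congr 1
  exact funext hr

end Red

/-! ### Good reduction: injectivity on torsion -/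

section Good

variable {L F k Ft : Type*} [Field L] [Field F] [Algebra L F] [Field k] [Field Ft] [Algebra k Ft]

/-- **Good reduction data**: exactly the hypotheses of
`Lib.Red.OneStepGlue.principal_of_torsion_ff1`, plus surjectivity of the place map.
`x` is the base function (a unit of the Gauss ring `O`), both function fields are `IsFF1`
with base functions `x` and `red x`, the genus and the pole degree of `x` do not drop, constants
lift, and `red x` is unramified outside a finite set of places. -/
structure GoodRed (O : ValuationSubring F) (red : O →+* Ft) (r : Place L F → Place k Ft)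
    (x : Oˣ) : Prop where
  isRed : IsRed O red r
  ffL : IsFF1 L F ((x : O) : F)
  ffk : IsFF1 k Ft (red (x : O))
  surj : Function.Surjective r
  genus : genusFF L F ≤ genusFF k Ft
  deg : Divisor.degree ffL.poleDiv ≤ Divisor.degree ffk.poleDiv
  lift : ∀ γ : k, ∃ c : O, IsConst L c ∧ red c = algebraMap k Ft γ
  unram : ∃ S₀ : Finset (Place k Ft), ∀ Q ∉ S₀, 0 ≤ Q.ord (red x) ∧ ∀ γ : k,
    0 < Q.ord (red (x : O) - algebraMap k Ft γ) → Q.ord (red (x : O) - algebraMap k Ft γ) = 1

namespace GoodRed

variable {O : ValuationSubring F} {red : O →+* Ft} {r : Place L F → Place k Ft} {x : Oˣ}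

theorem degL (h : GoodRed O red r x) (P : Place L F) : P.deg = 1 := h.ffL.deg_eq_one P

theorem degk (h : GoodRed O red r x) (Q : Place k Ft) : Q.deg = 1 := h.ffk.deg_eq_one Q

/-- The reduction homomorphism of good reduction data. -/
def rho (h : GoodRed O red r x) : Pic0 L F →+ Pic0 k Ft :=
  redPic0 h.isRed h.degL h.degk

theorem rho_mk (h : GoodRed O red r x) (D : Divisor.degZero (K := L) (F := F)) :
    h.rho (Pic0.mk D) = Pic0.mk (redDegZero r h.degL h.degk D) := rfl

theorem rho_surjective (h : GoodRed O red r x) : Function.Surjective h.rho :=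
  redPic0_surjective h.isRed h.degL h.degk h.surj

theorem rho_smul (h : GoodRed O red r x) (g : SemilinearAut L F) (gt : SemilinearAut k Ft)
    (hr : ∀ P : Place L F, r (g • P) = gt • r P) (c : Pic0 L F) :
    h.rho (g • c) = gt • h.rho c :=
  redPic0_smul h.isRed h.degL h.degk g gt hr c

/-- **(INJ)** A class killed by `m` (invertible in `Ft`) with trivial reduction is trivial. -/
theorem eq_zero_of_rho_eq_zero [Infinite k] (h : GoodRed O red r x) {m : ℕ} (hm : (m : Ft) ≠ 0)
    (c : Pic0 L F) (hmc : (m : ℤ) • c = 0) (hc : h.rho c = 0) : c = 0 := by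
  obtain ⟨D, rfl⟩ := Pic0.mk_surjective c
  -- `m • D` is principal
  have h1 : ((m : ℤ) • D : Divisor.degZero (K := L) (F := F)) ∈
      (Divisor.principal (K := L) (F := F)).addSubgroupOf (Divisor.degZero (K := L) (F := F)) :=
    (QuotientAddGroup.eq_zero_iff _).1 hmc
  rw [AddSubgroup.mem_addSubgroupOf] at h1
  obtain ⟨f₀, hf₀, hmD⟩ := h1
  have hmD' : ∀ P : Place L F, (m : ℤ) * (D : Divisor L F) P = P.ord f₀ := fun P => by
    rw [← hmD P]
    simp
  -- the reduction of `D` is principal
  have h2 : redDegZero r h.degL h.degk D ∈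
      (Divisor.principal (K := k) (F := Ft)).addSubgroupOf (Divisor.degZero (K := k) (F := Ft)) :=
    (QuotientAddGroup.eq_zero_iff _).1 hc
  rw [AddSubgroup.mem_addSubgroupOf] at h2
  obtain ⟨hbar, hhbar, hrD⟩ := h2
  obtain ⟨S₀, hS₀⟩ := h.unram
  obtain ⟨φ, hφ, hDφ⟩ := Fermat.Agent.Lib.Red.OneStepGlue.principal_of_torsion_ff1 h.isRed x
    h.ffL h.ffk h.surj h.genus h.deg h.lift S₀ hS₀ hm (D : Divisor L F) D.2 f₀ hf₀ hmD' hbar hhbar
    (fun Q => hrD Q)
  refine (QuotientAddGroup.eq_zero_iff _).2 ?_
  rw [AddSubgroup.mem_addSubgroupOf]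
  exact ⟨φ, hφ, hDφ⟩

/-- **(INJ)** The reduction is injective on the `ℓ`-primary torsion, `ℓ` invertible in `Ft`. -/
theorem injOn_torsion [Infinite k] (h : GoodRed O red r x) {ℓ : ℕ} (hℓ : (ℓ : Ft) ≠ 0) :
    Set.InjOn h.rho {c : Pic0 L F | ∃ n : ℕ, ((ℓ ^ n : ℕ) : ℤ) • c = 0} := by
  rintro c₁ ⟨n₁, h₁⟩ c₂ ⟨n₂, h₂⟩ heq
  have hm : ((ℓ ^ (n₁ + n₂) : ℕ) : Ft) ≠ 0 := by
    rw [Nat.cast_pow]
    exact pow_ne_zero _ hℓ
  have hkill : ((ℓ ^ (n₁ + n₂) : ℕ) : ℤ) • (c₁ - c₂) = 0 := by
    have e₁ : ((ℓ ^ (n₁ + n₂) : ℕ) : ℤ) = ((ℓ ^ n₂ : ℕ) : ℤ) * ((ℓ ^ n₁ : ℕ) : ℤ) := by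
      push_cast; ring
    have e₂ : ((ℓ ^ (n₁ + n₂) : ℕ) : ℤ) = ((ℓ ^ n₁ : ℕ) : ℤ) * ((ℓ ^ n₂ : ℕ) : ℤ) := by
      push_cast; ring
    rw [zsmul_sub]
    nth_rewrite 1 [e₁]
    rw [e₂, mul_smul, mul_smul, h₁, h₂, smul_zero, smul_zero, sub_zero]
  have hzero : h.rho (c₁ - c₂) = 0 := by rw [map_sub, heq, sub_self]
  exact sub_eq_zero.1 (h.eq_zero_of_rho_eq_zero hm _ hkill hzero)

/-- The reduction restricted to the `m`-torsion. -/
def rhoTorsion (h : GoodRed O red r x) (m : ℕ) : Pic0.torsion L F m → Pic0.torsion k Ft m :=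
  fun c => ⟨h.rho (c : Pic0 L F), by
    have hc := Pic0.mem_torsion.1 c.2
    rw [Pic0.mem_torsion, ← map_zsmul, hc, map_zero]⟩

theorem rhoTorsion_injective [Infinite k] (h : GoodRed O red r x) {m : ℕ} (hm : (m : Ft) ≠ 0) :
    Function.Injective (h.rhoTorsion m) := by
  intro c₁ c₂ heq
  have heq' : h.rho (c₁ : Pic0 L F) = h.rho (c₂ : Pic0 L F) := congrArg Subtype.val heq
  have hkill : (m : ℤ) • ((c₁ : Pic0 L F) - (c₂ : Pic0 L F)) = 0 := by
    rw [zsmul_sub, Pic0.mem_torsion.1 c₁.2, Pic0.mem_torsion.1 c₂.2, sub_zero]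
  have hzero : h.rho ((c₁ : Pic0 L F) - (c₂ : Pic0 L F)) = 0 := by
    rw [map_sub, heq', sub_self]
  exact Subtype.ext (sub_eq_zero.1 (h.eq_zero_of_rho_eq_zero hm _ hkill hzero))

/-- Finiteness of torsion descends from the special fibre. -/
theorem finite_torsion [Infinite k] (h : GoodRed O red r x) {m : ℕ} (hm : (m : Ft) ≠ 0)
    [Finite (Pic0.torsion k Ft m)] : Finite (Pic0.torsion L F m) :=
  Finite.of_injective _ (h.rhoTorsion_injective hm)

/-- **(INJ), counting form.** -/
theorem card_torsion_le [Infinite k] (h : GoodRed O red r x) {m : ℕ} (hm : (m : Ft) ≠ 0)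
    [Finite (Pic0.torsion k Ft m)] :
    Nat.card (Pic0.torsion L F m) ≤ Nat.card (Pic0.torsion k Ft m) :=
  Nat.card_le_card_of_injective _ (h.rhoTorsion_injective hm)

end GoodRed

end Good

/-! ### Compatibility with a commutative square of place maps -/

section Square

variable {L F k Ft : Type*} [Field L] [Field F] [Algebra L F] [Field k] [Field Ft] [Algebra k Ft]
variable {L' F' k' Ft' : Type*} [Field L'] [Field F'] [Algebra L' F'] [Field k'] [Field Ft']
  [Algebra k' Ft']
variable {O : ValuationSubring F} {red : O →+* Ft} {r : Place L F → Place k Ft}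
variable {O' : ValuationSubring F'} {red' : O' →+* Ft'} {r' : Place L' F' → Place k' Ft'}

/-- If the place reductions `r`, `r'` commute with maps of places `e` (generic fibres) and `et`
(special fibres), and `bc`, `bct` are the homomorphisms of `Pic0` induced by the push-forwards
along `e`, `et`, then the reductions on `Pic0` commute with `bc`, `bct`. -/
theorem redPic0_comm (h : IsRed O red r) (hL : ∀ P : Place L F, P.deg = 1)
    (hk : ∀ Q : Place k Ft, Q.deg = 1) (h' : IsRed O' red' r')
    (hL' : ∀ P : Place L' F', P.deg = 1) (hk' : ∀ Q : Place k' Ft', Q.deg = 1)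
    (e : Place L F → Place L' F') (et : Place k Ft → Place k' Ft')
    (hsq : ∀ P : Place L F, r' (e P) = et (r P))
    (bc : Pic0 L F →+ Pic0 L' F') (bct : Pic0 k Ft →+ Pic0 k' Ft')
    (hbc : ∀ D : Divisor.degZero (K := L) (F := F), bc (Pic0.mk D) = Pic0.mk (redDegZero e hL hL' D))
    (hbct : ∀ D : Divisor.degZero (K := k) (F := Ft),
      bct (Pic0.mk D) = Pic0.mk (redDegZero et hk hk' D))
    (c : Pic0 L F) : redPic0 h' hL' hk' (bc c) = bct (redPic0 h hL hk c) := by
  obtain ⟨D, rfl⟩ := Pic0.mk_surjective c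
  rw [hbc, redPic0_mk, redPic0_mk, hbct]
  refine congrArg Pic0.mk (Subtype.ext ?_)
  rw [coe_redDegZero, coe_redDegZero, coe_redDegZero, coe_redDegZero,
    ← Finsupp.mapDomain_comp, ← Finsupp.mapDomain_comp]
  congr 1
  exact funext hsq

end Square

end Fermat.Agent.S27P.Inj.RedPic
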