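import Mathlib
import Fermat.Prelude.Def_AlgebraicCurve_BaseChangeGalois
import Fermat.Agent.Lib.FF.RRApprox
import Fermat.Agent.Lib.FF.ModLBase
import Fermat.Agent.S27P.GR.Defs
import Fermat.Agent.S27P.Inj.RedPic
import Fermat.Agent.S27P.Inj.Centre

/-!
# S27 / (INJ-GR): from the conclusion of the reduction theorem `GR.exists_isRed` to `GoodRed`,
the two charts, and the `Pic0`-level facts of the top seam

`IsGR M ψ₁ ψ₂ A π O red r xO` packages the clauses of the conclusion of `GR.exists_isRed`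
(cut v1 of (GR)).  From it (and the description of the two chart rings of the special fibre,
`Real.chart`, `Real.chart'`, taken here as hypotheses in their literal form):

* `IsGR.goodRed`     : `RedPic.GoodRed O red r xO`;
* `IsGR.eq_of_vals`, `IsGR.eq_of_vals'` : `r P` is the unique place of the chart of the special
  fibre at which the reduced chart generators take the reduced values ((R2)+(SEP); (SEP) is proved
  here by strong approximation);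
* `IsGR.isChart`, `IsGR.isChart'` : the two `Centre.IsChart`s;
* `IsGR.cover`       : the two charts cover the generic fibre;
* `IsGR.r_smul`, `IsGR.rho_smul`       : (c) equivariance, on places and on `Pic0`;
* `IsGR.r_comm`, `IsGR.rho_comm`       : (a) the base-change square;
* `IsGR.r_retract`, `IsGR.rho_retract` : (R4) the retraction for the constant instance;
* `valAt_of_ord_eq`  : unramified place maps preserve values.
-/

set_option autoImplicit false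

noncomputable section

namespace Fermat.Agent.S27P.Inj.Centre

open AlgebraicCurve Polynomial IntermediateField
open Fermat.Agent.Lib.FF Fermat.Agent.Lib.Red.PlaceRed

/-! ### Values of functions at places: complements (in the namespace of `ValAt`) -/

section Values

variable {K F : Type*} [Field K] [Field F] [Algebra K F]

/-- A function regular at a place with residue field `K` takes a value there. -/
theorem exists_valAt_of_resK {v : Place K F} (hv : RR.ResK v) {f : F} (hf : 0 ≤ v.ord f) :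
    ∃ c : K, ValAt v f c := by
  have hmem : f ∈ v.toValuationSubring := Fermat.Agent.S24.mem_of_ord_nonneg v hf
  obtain ⟨c, hc⟩ := hv ⟨f, hmem⟩
  refine ⟨c, ?_⟩
  have h2 := RR.val_le_exp_neg_one_of_mem_maximalIdeal v _ hc
  have h4 : (((⟨f, hmem⟩ : v.toValuationSubring) - algebraMap K v.toValuationSubring c :
      v.toValuationSubring) : F) = f - algebraMap K F c := rfl
  rw [h4] at h2
  refine lt_of_le_of_lt h2 ?_
  rw [← WithZero.exp_zero, WithZero.exp_lt_exp]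
  norm_num

/-- A function with a value at `v` is regular at `v`. -/
theorem ValAt.ord_nonneg {v : Place K F} {f : F} {c : K} (h : ValAt v f c) : 0 ≤ v.ord f :=
  (Fermat.Agent.S24.mem_iff_ord_nonneg v).1 ((adicValuation_le_one_iff_mem v).1 h.le_one)

theorem valAt_one (v : Place K F) : ValAt v (1 : F) (1 : K) := by
  have := valAt_algebraMap v (1 : K)
  rwa [map_one] at this

theorem valAt_zero_of_ord_pos {v : Place K F} {f : F} (h : 0 < v.ord f) : ValAt v f (0 : K) := by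
  refine valAt_of_ord_pos v ?_
  rwa [map_zero, sub_zero]

theorem ValAt.ord_pos_of_zero {v : Place K F} {f : F} (h : ValAt v f (0 : K)) (hf : f ≠ 0) :
    0 < v.ord f := by
  have := (valAt_iff_ord v (f := f) (c := (0 : K)) (by rwa [map_zero])).1 h
  rwa [map_zero, sub_zero] at this

theorem ValAt.pow {v : Place K F} {f : F} {c : K} (h : ValAt v f c) (m : ℕ) :
    ValAt v (f ^ m) (c ^ m) := by
  induction m with
  | zero => rw [pow_zero, pow_zero]; exact valAt_one v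
  | succ m ih => rw [pow_succ, pow_succ]; exact ih.mul h

/-- If `z` takes the value `c` at `v`, then `p(z)` takes the value `p(c)`. -/
theorem ValAt.aeval {v : Place K F} {z : F} {c : K} (h : ValAt v z c) (p : K[X]) :
    ValAt v (aeval z p) (p.eval c) := by
  induction p using Polynomial.induction_on' with
  | add p q hp hq =>
    rw [map_add, eval_add]
    exact hp.add hq
  | monomial m a =>
    rw [← C_mul_X_pow_eq_monomial, map_mul, aeval_C, map_pow, aeval_X, eval_mul, eval_C,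
      eval_pow, eval_X]
    exact (valAt_algebraMap v a).mul (h.pow m)

/-- The value of the inverse. -/
theorem ValAt.inv {v : Place K F} {f : F} {c : K} (h : ValAt v f c) (hc : c ≠ 0) :
    ValAt v f⁻¹ c⁻¹ := by
  have hc1 : v.adicValuation (algebraMap K F c) = 1 := adicValuation_algebraMap_eq_one v hc
  have hf1 : v.adicValuation f = 1 := by
    have e : f = algebraMap K F c + (f - algebraMap K F c) := by ring
    have hlt : v.adicValuation (f - algebraMap K F c) < v.adicValuation (algebraMap K F c) := by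
      rw [hc1]; exact h
    rw [e, Valuation.map_add_eq_of_lt_left _ hlt, hc1]
  have hf0 : f ≠ 0 := by
    rintro rfl
    rw [map_zero] at hf1
    exact zero_ne_one hf1
  have hc0 : algebraMap K F c ≠ 0 := (map_ne_zero (algebraMap K F)).2 hc
  unfold ValAt at *
  have e : f⁻¹ - algebraMap K F c⁻¹ = -((f - algebraMap K F c) * f⁻¹ * (algebraMap K F c)⁻¹) := by
    rw [map_inv₀]
    field_simp
    ring
  rw [e, Valuation.map_neg, map_mul, map_mul, map_inv₀, map_inv₀, hf1, hc1, inv_one, mul_one,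
    mul_one]
  exact h

/-- **Unramified place maps preserve values.**  If `ι : F →+* F'` is compatible with a map `j` of
constant fields and `(e P).ord (ι f) = P.ord f` for all `f`, then `ι f` takes at `e P` the value
`j c` whenever `f` takes at `P` the value `c`. -/
theorem valAt_of_ord_eq {K' F' : Type*} [Field K'] [Field F'] [Algebra K' F'] (j : K →+* K')
    (ι : F →+* F') (hcomm : ∀ c : K, ι (algebraMap K F c) = algebraMap K' F' (j c))
    {P : Place K F} {P' : Place K' F'} (hord : ∀ f : F, P'.ord (ι f) = P.ord f) {f : F} {c : K}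
    (h : ValAt P f c) : ValAt P' (ι f) (j c) := by
  unfold ValAt at *
  rw [← hcomm, ← map_sub]
  rcases eq_or_ne (f - algebraMap K F c) 0 with h0 | h0
  · rw [h0, map_zero, map_zero]
    exact zero_lt_one
  · have h1 : ι (f - algebraMap K F c) ≠ 0 := (map_ne_zero ι).2 h0
    rw [P'.adicValuation_eq_exp_neg_ord h1, hord]
    rwa [P.adicValuation_eq_exp_neg_ord h0] at h

end Values

end Fermat.Agent.S27P.Inj.Centre

namespace Fermat.Agent.S27P.Inj.OfGR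

open AlgebraicCurve Polynomial IntermediateField
open Fermat.Agent.Lib.FF Fermat.Agent.Lib.Red.OneStep Fermat.Agent.Lib.Red.PlaceRed
open Fermat.Agent.S27P.Inj.Centre Fermat.Agent.S27P.Inj.RedPic

/-! ### (SEP): the chart functions separate the places of a chart -/

section Sep

variable {k Ft : Type*} [Field k] [Field Ft] [Algebra k Ft]

/-- `f` takes the same value at `Q` and at `Q'`. -/
def Common (Q Q' : Place k Ft) (f : Ft) : Prop := ∃ γ : k, ValAt Q f γ ∧ ValAt Q' f γ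

theorem Common.const (Q Q' : Place k Ft) (a : k) : Common Q Q' (algebraMap k Ft a) :=
  ⟨a, valAt_algebraMap Q a, valAt_algebraMap Q' a⟩

theorem Common.add {Q Q' : Place k Ft} {f g : Ft} (hf : Common Q Q' f) (hg : Common Q Q' g) :
    Common Q Q' (f + g) := by
  obtain ⟨γ, h1, h2⟩ := hf
  obtain ⟨δ, h3, h4⟩ := hg
  exact ⟨γ + δ, h1.add h3, h2.add h4⟩

theorem Common.mul {Q Q' : Place k Ft} {f g : Ft} (hf : Common Q Q' f) (hg : Common Q Q' g) :
    Common Q Q' (f * g) := by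
  obtain ⟨γ, h1, h2⟩ := hf
  obtain ⟨δ, h3, h4⟩ := hg
  exact ⟨γ * δ, h1.mul h3, h2.mul h4⟩

theorem Common.aeval {Q Q' : Place k Ft} {z : Ft} (hz : Common Q Q' z) (p : k[X]) :
    Common Q Q' (aeval z p) := by
  obtain ⟨γ, h1, h2⟩ := hz
  exact ⟨p.eval γ, h1.aeval p, h2.aeval p⟩

theorem Common.sum {Q Q' : Place k Ft} {ι : Type*} (s : Finset ι) (f : ι → Ft)
    (h : ∀ i ∈ s, Common Q Q' (f i)) : Common Q Q' (∑ i ∈ s, f i) := by
  refine Finset.sum_induction f (Common Q Q') (fun a b ha hb => ha.add hb) ?_ h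
  have := Common.const Q Q' (0 : k)
  rwa [map_zero] at this

/-- **(SEP)** Let `Tt` be a set of places of the function field `Ft/k` missing at least one place,
such that every function regular on `Tt` is a `k[z]`-combination of the `c j`.  Then two places of
`Tt` at which `z` and the `c j` take the same values are equal. -/
theorem eq_of_common {X : Ft} (hFF : IsFF1 k Ft X) {n : ℕ} (z : Ft) (c : Fin n → Ft)
    (Tt : Set (Place k Ft)) {P₀ : Place k Ft} (hP₀ : P₀ ∉ Tt)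
    (hchart : ∀ f : Ft, (∀ v ∈ Tt, 0 ≤ v.ord f) →
      ∃ p : Fin n → k[X], f = ∑ j, aeval z (p j) * c j)
    {Q Q' : Place k Ft} (hQ : Q ∈ Tt) (hQ' : Q' ∈ Tt)
    (hz : Common Q Q' z) (hc : ∀ j, Common Q Q' (c j)) : Q = Q' := by
  classical
  by_contra hne
  have hP₀S : P₀ ∉ ({Q, Q'} : Finset (Place k Ft)) := by
    intro hmem
    rcases Finset.mem_insert.1 hmem with h | h
    · exact hP₀ (h ▸ hQ)
    · rw [Finset.mem_singleton] at h
      exact hP₀ (h ▸ hQ')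
  obtain ⟨f, hf0, hfS, hfreg⟩ :=
    hFF.exists_ord_eq {Q, Q'} P₀ hP₀S (fun v => if v = Q then 1 else 0)
  have hfQ : Q.ord f = 1 := by
    have := hfS Q (Finset.mem_insert_self _ _)
    rwa [if_pos rfl] at this
  have hfQ' : Q'.ord f = 0 := by
    have := hfS Q' (Finset.mem_insert_of_mem (Finset.mem_singleton_self _))
    rwa [if_neg (Ne.symm hne)] at this
  have hreg : ∀ v ∈ Tt, 0 ≤ v.ord f := by
    intro v hv
    by_cases hvS : v ∈ ({Q, Q'} : Finset (Place k Ft))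
    · rcases Finset.mem_insert.1 hvS with h | h
      · rw [h, hfQ]; norm_num
      · rw [Finset.mem_singleton] at h
        rw [h, hfQ']
    · exact hfreg v hvS (fun h => hP₀ (h ▸ hv))
  obtain ⟨p, hp⟩ := hchart f hreg
  have hcommon : Common Q Q' f := by
    rw [hp]
    exact Common.sum _ _ fun j _ => (hz.aeval (p j)).mul (hc j)
  obtain ⟨γ, hγ, hγ'⟩ := hcommon
  have h0 : ValAt Q f (0 : k) := valAt_zero_of_ord_pos (by rw [hfQ]; norm_num)
  have hγ0 : γ = 0 := hγ.unique h0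
  rw [hγ0] at hγ'
  have := hγ'.ord_pos_of_zero hf0
  rw [hfQ'] at this
  exact lt_irrefl _ this

end Sep

/-! ### One chart of a reduction -/

section Chart

variable {Λ U : Type*} [CommRing Λ] [CommRing U] [Algebra Λ U] {n : ℕ}
variable {K' F' k Ft : Type*} [Field K'] [Field F'] [Algebra K' F'] [Field k] [Field Ft]
  [Algebra k Ft]

/-- The places of the generic fibre at which `z` takes a value in `A` (the places whose centre
lies on the chart with coordinate `z`). -/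
def TA (A : ValuationSubring K') (π : A →+* k) (z : F') : Set (Place K' F') :=
  {P | ∃ γ₀ : k, EvK A π P z γ₀}

/-- The functions of the chart ring `B₀`, as elements of `O`. -/
def SB (ψ₁ : U →+* F') (O : ValuationSubring F') (B₀ : Subalgebra Λ U) : Set O :=
  {f | ∃ u : B₀, ((f : O) : F') = ψ₁ (u : U)}

/-- **One chart of a reduction** (coordinate `z ∈ B₀`, generators `c j ∈ B₀`): the places of the
special fibre on the chart are those at which `ψ₂ z` is regular;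
`ev` = (R2): the functions of `B₀` take at `P` (with `z(P) ∈ A`) values in `A`, and their
reductions take the reduced values at `r P`; `sep` = (SEP) for the generators. -/
structure IsGRChart (A : ValuationSubring K') (π : A →+* k) (r : Place K' F' → Place k Ft)
    (ψ₁ : U →+* F') (ψ₂ : U →+* Ft) (B₀ : Subalgebra Λ U) (z : B₀) (c : Fin n → B₀) : Prop where
  resK : ∀ Q : Place k Ft, RR.ResK Q
  ev : ∀ (P : Place K' F') (γ₀ : k), EvK A π P (ψ₁ (z : U)) γ₀ → ∀ u : B₀,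
    ∃ γ : k, EvK A π P (ψ₁ (u : U)) γ ∧ ValAt (r P) (ψ₂ (u : U)) γ
  reg : ∀ j, ∀ Q : Place k Ft, 0 ≤ Q.ord (ψ₂ (z : U)) → 0 ≤ Q.ord (ψ₂ (c j : U))
  sep : ∀ Q Q' : Place k Ft, 0 ≤ Q.ord (ψ₂ (z : U)) → 0 ≤ Q'.ord (ψ₂ (z : U)) →
    Common Q Q' (ψ₂ (z : U)) → (∀ j, Common Q Q' (ψ₂ (c j : U))) → Q = Q'

namespace IsGRChart

variable {A : ValuationSubring K'} {π : A →+* k} {r : Place K' F' → Place k Ft}
  {ψ₁ : U →+* F'} {ψ₂ : U →+* Ft} {B₀ : Subalgebra Λ U} {z : B₀} {c : Fin n → B₀}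

/-- The chart is stable under reduction. -/
theorem maps (hc : IsGRChart A π r ψ₁ ψ₂ B₀ z c) {P : Place K' F'} {γ₀ : k}
    (hP : EvK A π P (ψ₁ (z : U)) γ₀) : 0 ≤ (r P).ord (ψ₂ (z : U)) := by
  obtain ⟨γ, -, hr⟩ := hc.ev P γ₀ hP z
  exact hr.ord_nonneg

/-- **`r P` is the centre of `P`** (generator form): `r P` is the unique place of the chart of
the special fibre at which the reduced coordinate and the reduced generators take the reduced
values. -/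
theorem eq_of_vals (hc : IsGRChart A π r ψ₁ ψ₂ B₀ z c) {P : Place K' F'} {γ₀ : k}
    (hP : EvK A π P (ψ₁ (z : U)) γ₀) {Q : Place k Ft} (hQ : 0 ≤ Q.ord (ψ₂ (z : U)))
    (hz : ∀ a : A, ValAt P (ψ₁ (z : U)) (a : K') → ValAt Q (ψ₂ (z : U)) (π a))
    (hcj : ∀ j, ∀ a : A, ValAt P (ψ₁ (c j : U)) (a : K') → ValAt Q (ψ₂ (c j : U)) (π a)) :
    r P = Q := by
  have key : ∀ u : B₀, (∀ a : A, ValAt P (ψ₁ (u : U)) (a : K') → ValAt Q (ψ₂ (u : U)) (π a)) →
      Common (r P) Q (ψ₂ (u : U)) := by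
    intro u hu
    obtain ⟨γ, ⟨a, ha, hav⟩, hr⟩ := hc.ev P γ₀ hP u
    exact ⟨γ, hr, ha ▸ hu a hav⟩
  exact hc.sep (r P) Q (hc.maps hP) hQ (key z hz) (fun j => key (c j) (hcj j))

/-- The `Centre.IsChart` of a chart of a reduction. -/
theorem isChart (hc : IsGRChart A π r ψ₁ ψ₂ B₀ z c) (O : ValuationSubring F') (red : O →+* Ft)
    (redU : ∀ u : U, ∃ h : ψ₁ u ∈ O, red ⟨ψ₁ u, h⟩ = ψ₂ u) :
    IsChart A π O red r (SB ψ₁ O B₀) (TA A π (ψ₁ (z : U)))
      {Q | 0 ≤ Q.ord (ψ₂ (z : U))} where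
  maps := by
    rintro P ⟨γ₀, hγ₀⟩
    exact hc.maps hγ₀
  ev := by
    rintro P ⟨γ₀, hγ₀⟩ f ⟨u, hu⟩
    obtain ⟨γ, ⟨a, ha, hav⟩, hr⟩ := hc.ev P γ₀ hγ₀ u
    obtain ⟨hmem, hred⟩ := redU (u : U)
    have hf : f = ⟨ψ₁ (u : U), hmem⟩ := Subtype.ext hu
    refine ⟨a, ?_, ?_⟩
    · rw [hu]
      exact hav
    · rw [hf, hred, ha]
      exact hr
  sep := by
    intro Q hQ Q' hQ' hyp
    have key : ∀ u : B₀, 0 ≤ Q.ord (ψ₂ (u : U)) → Common Q Q' (ψ₂ (u : U)) := by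
      intro u hreg
      obtain ⟨γ, hγ⟩ := exists_valAt_of_resK (hc.resK Q) hreg
      obtain ⟨hmem, hred⟩ := redU (u : U)
      have h1 := hyp ⟨ψ₁ (u : U), hmem⟩ ⟨u, rfl⟩ γ (by rw [hred]; exact hγ)
      rw [hred] at h1
      exact ⟨γ, hγ, h1⟩
    exact hc.sep Q Q' hQ hQ' (key z hQ) (fun j => key (c j) (hc.reg j Q hQ))

/-- **(c) Equivariance on one chart.** -/
theorem smul (hc : IsGRChart A π r ψ₁ ψ₂ B₀ z c) (g : SemilinearAut K' F')
    (gt : SemilinearAut k Ft)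
    (hA : ∀ a : A, SemilinearAut.baseAut g (a : K') ∈ A)
    (hπ : ∀ a : A, π ⟨SemilinearAut.baseAut g (a : K'), hA a⟩ = SemilinearAut.baseAut gt (π a))
    (hg : ∀ u : U, g • ψ₁ u = ψ₁ u) (hgt : ∀ u : U, gt • ψ₂ u = ψ₂ u)
    {P : Place K' F'} {γ₀ : k} (hP : EvK A π P (ψ₁ (z : U)) γ₀) : r (g • P) = gt • r P := by
  -- transport of the values of the chart functions
  have key : ∀ u : B₀, ∃ a : A, ValAt (g • P) (ψ₁ (u : U)) (SemilinearAut.baseAut g (a : K')) ∧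
      ValAt (gt • r P) (ψ₂ (u : U)) (π ⟨SemilinearAut.baseAut g (a : K'), hA a⟩) := by
    intro u
    obtain ⟨γ, ⟨a, ha, hav⟩, hr⟩ := hc.ev P γ₀ hP u
    refine ⟨a, ?_, ?_⟩
    · have h1 : ValAt (g • P) (g • ψ₁ (u : U)) (SemilinearAut.baseAut g (a : K')) :=
        ValAt.smul hav g
      rwa [hg] at h1
    · have h1 : ValAt (gt • r P) (gt • ψ₂ (u : U)) (SemilinearAut.baseAut gt γ) := hr.smul gt
      rwa [hgt, ← ha, ← hπ a] at h1
  have hval : ∀ u : B₀, ∀ a' : A, ValAt (g • P) (ψ₁ (u : U)) (a' : K') →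
      ValAt (gt • r P) (ψ₂ (u : U)) (π a') := by
    intro u a' ha'
    obtain ⟨a, h1, h2⟩ := key u
    have e : a' = ⟨SemilinearAut.baseAut g (a : K'), hA a⟩ := Subtype.ext (ha'.unique h1)
    rw [e]
    exact h2
  obtain ⟨a₀, h1, h2⟩ := key z
  exact hc.eq_of_vals (γ₀ := π ⟨SemilinearAut.baseAut g (a₀ : K'), hA a₀⟩) ⟨_, rfl, h1⟩
    h2.ord_nonneg (hval z) (fun j => hval (c j))

end IsGRChart

/-- **(a) The base-change square on one chart.**  The target reduction has the chart `hc'`; the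
source reduction only needs (R2) (`hev`). -/
theorem IsGRChart.comm {K'' F'' k'' Ft'' : Type*} [Field K''] [Field F''] [Algebra K'' F'']
    [Field k''] [Field Ft''] [Algebra k'' Ft'']
    {A : ValuationSubring K'} {π : A →+* k} {r : Place K' F' → Place k Ft}
    {ψ₁ : U →+* F'} {ψ₂ : U →+* Ft} {B₀ : Subalgebra Λ U} {z : B₀} {c : Fin n → B₀}
    {A' : ValuationSubring K''} {π' : A' →+* k''} {r' : Place K'' F'' → Place k'' Ft''}
    {ψ₁' : U →+* F''} {ψ₂' : U →+* Ft''}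
    (hc' : IsGRChart A' π' r' ψ₁' ψ₂' B₀ z c)
    (hev : ∀ (P : Place K' F') (γ₀ : k), EvK A π P (ψ₁ (z : U)) γ₀ → ∀ u : B₀,
      ∃ γ : k, EvK A π P (ψ₁ (u : U)) γ ∧ ValAt (r P) (ψ₂ (u : U)) γ)
    (j : K' →+* K'') (jt : k →+* k'') (ι : F' →+* F'') (ιt : Ft →+* Ft'')
    (e : Place K' F' → Place K'' F'') (et : Place k Ft → Place k'' Ft'')
    (hjA : ∀ a : A, j (a : K') ∈ A')
    (hjπ : ∀ a : A, π' ⟨j (a : K'), hjA a⟩ = jt (π a))
    (he : ∀ (P : Place K' F') (f : F') (a : K'), ValAt P f a → ValAt (e P) (ι f) (j a))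
    (het : ∀ (Q : Place k Ft) (f : Ft) (γ : k), ValAt Q f γ → ValAt (et Q) (ιt f) (jt γ))
    (hι : ∀ u : U, ψ₁' u = ι (ψ₁ u)) (hιt : ∀ u : U, ψ₂' u = ιt (ψ₂ u))
    {P : Place K' F'} {γ₀ : k} (hP : EvK A π P (ψ₁ (z : U)) γ₀) : r' (e P) = et (r P) := by
  have key : ∀ u : B₀, ∃ a : A, ValAt (e P) (ψ₁' (u : U)) (j (a : K')) ∧
      ValAt (et (r P)) (ψ₂' (u : U)) (π' ⟨j (a : K'), hjA a⟩) := by
    intro u
    obtain ⟨γ, ⟨a, ha, hav⟩, hr⟩ := hev P γ₀ hP u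
    refine ⟨a, ?_, ?_⟩
    · rw [hι]
      exact he P _ _ hav
    · rw [hιt, hjπ a, ha]
      exact het _ _ _ hr
  have hval : ∀ u : B₀, ∀ a' : A', ValAt (e P) (ψ₁' (u : U)) (a' : K'') →
      ValAt (et (r P)) (ψ₂' (u : U)) (π' a') := by
    intro u a' ha'
    obtain ⟨a, h1, h2⟩ := key u
    have e' : a' = ⟨j (a : K'), hjA a⟩ := Subtype.ext (ha'.unique h1)
    rw [e']
    exact h2
  obtain ⟨a₀, h1, h2⟩ := key z
  exact hc'.eq_of_vals (γ₀ := π' ⟨j (a₀ : K'), hjA a₀⟩) ⟨_, rfl, h1⟩ h2.ord_nonneg (hval z)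
    (fun i => hval (c i))

/-- **(R4) The retraction on one chart** (constant instance: the special fibre `Ft/k` sits
inside the generic fibre `F'/K'` through `j`, `ι`, and `π ∘ j = id`). -/
theorem IsGRChart.retract {A : ValuationSubring K'} {π : A →+* k}
    {r : Place K' F' → Place k Ft} {ψ₁ : U →+* F'} {ψ₂ : U →+* Ft} {B₀ : Subalgebra Λ U}
    {z : B₀} {c : Fin n → B₀} (hc : IsGRChart A π r ψ₁ ψ₂ B₀ z c)
    (j : k →+* K') (ι : Ft →+* F') (e : Place k Ft → Place K' F')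
    (hjA : ∀ γ : k, j γ ∈ A) (hjπ : ∀ γ : k, π ⟨j γ, hjA γ⟩ = γ)
    (he : ∀ (Q : Place k Ft) (f : Ft) (γ : k), ValAt Q f γ → ValAt (e Q) (ι f) (j γ))
    (hι : ∀ u : U, ψ₁ u = ι (ψ₂ u))
    {Q : Place k Ft} (hQ : 0 ≤ Q.ord (ψ₂ (z : U))) : r (e Q) = Q := by
  have hval : ∀ u : B₀, 0 ≤ Q.ord (ψ₂ (u : U)) → ∀ a : A, ValAt (e Q) (ψ₁ (u : U)) (a : K') →
      ValAt Q (ψ₂ (u : U)) (π a) := by
    intro u hu a ha
    obtain ⟨γ, hγ⟩ := exists_valAt_of_resK (hc.resK Q) hu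
    have h1 : ValAt (e Q) (ψ₁ (u : U)) (j γ) := by
      rw [hι]
      exact he Q _ _ hγ
    have e' : a = ⟨j γ, hjA γ⟩ := Subtype.ext (ha.unique h1)
    rw [e', hjπ]
    exact hγ
  obtain ⟨γ, hγ⟩ := exists_valAt_of_resK (hc.resK Q) hQ
  have hP : EvK A π (e Q) (ψ₁ (z : U)) γ := by
    refine ⟨⟨j γ, hjA γ⟩, hjπ γ, ?_⟩
    have h1 : ValAt (e Q) (ψ₁ (z : U)) (j γ) := by
      rw [hι]
      exact he Q _ _ hγ
    exact h1
  exact hc.eq_of_vals hP hQ (hval z hQ) (fun i => hval (c i) (hc.reg i Q hQ))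

end Chart

/-! ### The conclusion of the reduction theorem -/

section GRout

variable {Λ U : Type*} [CommRing Λ] [CommRing U] [Algebra Λ U] {n : ℕ}
variable {K' F' k Ft : Type*} [Field K'] [Field F'] [Algebra K' F'] [Field k] [Field Ft]
  [Algebra k Ft]

/-- In any realisation the image of `x'` is the inverse of the image of `x`. -/
theorem map_x'_eq {E : Type*} [Field E] (M : GR.Model Λ U n) (ψ : U →+* E) :
    ψ M.x' = (ψ M.x)⁻¹ := by
  have h : ψ M.x * ψ M.x' = 1 := by rw [← map_mul, M.hxx', map_one]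
  exact eq_inv_of_mul_eq_one_right h

/-- **The conclusion of `GR.exists_isRed`** (cut v1 of (GR)), as a predicate on
`(O, red, r, xO)`: the fields are its clauses, in order. -/
structure IsGR (M : GR.Model Λ U n) (ψ₁ : U →+* F') (ψ₂ : U →+* Ft) (A : ValuationSubring K')
    (π : A →+* k) (O : ValuationSubring F') (red : O →+* Ft) (r : Place K' F' → Place k Ft)
    (xO : Oˣ) : Prop where
  coe_x : ((xO : O) : F') = ψ₁ M.x
  red_x : red (xO : O) = ψ₂ M.x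
  isRed : IsRed O red r
  surj : Function.Surjective r
  ffL : IsFF1 K' F' (ψ₁ M.x)
  ffk : IsFF1 k Ft (ψ₂ M.x)
  genus : genusFF K' F' = genusFF k Ft
  finrank : Module.finrank K'⟮ψ₁ M.x⟯ F' = Module.finrank k⟮ψ₂ M.x⟯ Ft
  lift : ∀ γ : k, ∃ c : O, IsConst K' c ∧ red c = algebraMap k Ft γ
  redU : ∀ u : U, ∃ h : ψ₁ u ∈ O, red ⟨ψ₁ u, h⟩ = ψ₂ u
  ev : ∀ (P : Place K' F') (γ₀ : k), EvK A π P (ψ₁ M.x) γ₀ → ∀ u : M.B,
    ∃ γ : k, EvK A π P (ψ₁ (u : U)) γ ∧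
      (r P).adicValuation (ψ₂ (u : U) - algebraMap k Ft γ) < 1
  ev' : ∀ (P : Place K' F') (γ₀ : k), EvK A π P (ψ₁ M.x') γ₀ → ∀ u : M.B',
    ∃ γ : k, EvK A π P (ψ₁ (u : U)) γ ∧
      (r P).adicValuation (ψ₂ (u : U) - algebraMap k Ft γ) < 1

/-- `IsGR` from the literal conjunction in the conclusion of `GR.exists_isRed`. -/
theorem IsGR.of_and {M : GR.Model Λ U n} {ψ₁ : U →+* F'} {ψ₂ : U →+* Ft}
    {A : ValuationSubring K'} {π : A →+* k} {O : ValuationSubring F'} {red : O →+* Ft}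
    {r : Place K' F' → Place k Ft} {xO : Oˣ}
    (h : ((xO : O) : F') = ψ₁ M.x ∧ red (xO : O) = ψ₂ M.x ∧ IsRed O red r ∧
      Function.Surjective r ∧ IsFF1 K' F' (ψ₁ M.x) ∧ IsFF1 k Ft (ψ₂ M.x) ∧
      genusFF K' F' = genusFF k Ft ∧
      Module.finrank K'⟮ψ₁ M.x⟯ F' = Module.finrank k⟮ψ₂ M.x⟯ Ft ∧
      (∀ γ : k, ∃ c : O, IsConst K' c ∧ red c = algebraMap k Ft γ) ∧
      (∀ u : U, ∃ h : ψ₁ u ∈ O, red ⟨ψ₁ u, h⟩ = ψ₂ u) ∧
      (∀ (P : Place K' F') (γ₀ : k), EvK A π P (ψ₁ M.x) γ₀ → ∀ u : M.B,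
        ∃ γ : k, EvK A π P (ψ₁ (u : U)) γ ∧
          (r P).adicValuation (ψ₂ (u : U) - algebraMap k Ft γ) < 1) ∧
      (∀ (P : Place K' F') (γ₀ : k), EvK A π P (ψ₁ M.x') γ₀ → ∀ u : M.B',
        ∃ γ : k, EvK A π P (ψ₁ (u : U)) γ ∧
          (r P).adicValuation (ψ₂ (u : U) - algebraMap k Ft γ) < 1)) :
    IsGR M ψ₁ ψ₂ A π O red r xO := by
  obtain ⟨h1, h2, h3, h4, h5, h6, h7, h8, h9, h10, h11, h12⟩ := h
  exact ⟨h1, h2, h3, h4, h5, h6, h7, h8, h9, h10, h11, h12⟩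

namespace IsGR

variable {M : GR.Model Λ U n} {ψ₁ : U →+* F'} {ψ₂ : U →+* Ft} {A : ValuationSubring K'}
  {π : A →+* k} {O : ValuationSubring F'} {red : O →+* Ft} {r : Place K' F' → Place k Ft}
  {xO : Oˣ}

/-- **`GoodRed` from the reduction theorem.**  `hbad` is the conclusion of `Real.exists_bad_set`
at the special fibre. -/
theorem goodRed [IsAlgClosed K'] [IsAlgClosed k] (h : IsGR M ψ₁ ψ₂ A π O red r xO)
    (hbad : ∃ S₀ : Finset (Place k Ft), ∀ Q ∉ S₀, 0 ≤ Q.ord (ψ₂ M.x) ∧ ∀ γ : k,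
      0 < Q.ord (ψ₂ M.x - algebraMap k Ft γ) → Q.ord (ψ₂ M.x - algebraMap k Ft γ) = 1) :
    GoodRed O red r xO := by
  have hffL : IsFF1 K' F' ((xO : O) : F') := by rw [h.coe_x]; exact h.ffL
  have hffk : IsFF1 k Ft (red (xO : O)) := by rw [h.red_x]; exact h.ffk
  refine ⟨h.isRed, hffL, hffk, h.surj, le_of_eq h.genus, ?_, h.lift, ?_⟩
  · have e1 : Module.finrank K'⟮((xO : O) : F')⟯ F' = Module.finrank K'⟮ψ₁ M.x⟯ F' := by
      rw [h.coe_x]
    have e2 : Module.finrank k⟮red (xO : O)⟯ Ft = Module.finrank k⟮ψ₂ M.x⟯ Ft := by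
      rw [h.red_x]
    rw [hffL.degree_poleDiv_eq, hffk.degree_poleDiv_eq, e1, e2, h.finrank]
  · rw [h.red_x]
    exact hbad

/-- The finite chart of the reduction.  `hchart` is `Real.chart` at the special fibre. -/
theorem chart (h : IsGR M ψ₁ ψ₂ A π O red r xO)
    (hchart : ∀ f : Ft, (∀ v : Place k Ft, 0 ≤ v.ord (ψ₂ M.x) → 0 ≤ v.ord f) ↔
      ∃ p : Fin n → k[X], f = ∑ j, aeval (ψ₂ M.x) (p j) * ψ₂ (M.b j : U)) :
    IsGRChart A π r ψ₁ ψ₂ M.B ⟨M.x, M.hx⟩ M.b where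
  resK := h.ffk.resK
  ev := h.ev
  reg := by
    intro j Q hQ
    refine (hchart (ψ₂ (M.b j : U))).2 ⟨Pi.single j 1, ?_⟩ Q hQ
    rw [Finset.sum_eq_single j]
    · rw [Pi.single_eq_same, map_one, one_mul]
    · intro i _ hij
      rw [Pi.single_eq_of_ne hij, map_zero, zero_mul]
    · intro hj
      exact absurd (Finset.mem_univ j) hj
  sep := by
    intro Q Q' hQ hQ' hz hc
    obtain ⟨P₀, hP₀⟩ := h.ffk.exists_pole
    exact eq_of_common h.ffk (ψ₂ M.x) (fun j => ψ₂ (M.b j : U)) {Q | 0 ≤ Q.ord (ψ₂ M.x)}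
      (P₀ := P₀) (not_le.2 hP₀) (fun f hf => (hchart f).1 hf) hQ hQ' hz hc

/-- The chart at infinity of the reduction.  `hchart'` is `Real.chart'` at the special fibre. -/
theorem chart' (h : IsGR M ψ₁ ψ₂ A π O red r xO)
    (hchart' : ∀ f : Ft, (∀ v : Place k Ft, v.ord (ψ₂ M.x) ≤ 0 → 0 ≤ v.ord f) ↔
      ∃ p : Fin n → k[X], f = ∑ j, aeval (ψ₂ M.x)⁻¹ (p j) * ψ₂ (M.b' j : U)) :
    IsGRChart A π r ψ₁ ψ₂ M.B' ⟨M.x', M.hx'⟩ M.b' := by
  have hx' : ψ₂ M.x' = (ψ₂ M.x)⁻¹ := map_x'_eq M ψ₂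
  have hord : ∀ Q : Place k Ft, Q.ord (ψ₂ M.x') = -Q.ord (ψ₂ M.x) := fun Q => by
    rw [hx', Place.ord_inv]
  have hset : ∀ Q : Place k Ft, 0 ≤ Q.ord (ψ₂ M.x') ↔ Q.ord (ψ₂ M.x) ≤ 0 := fun Q => by
    rw [hord]; omega
  refine ⟨h.ffk.resK, h.ev', ?_, ?_⟩
  · intro j Q hQ
    refine (hchart' (ψ₂ (M.b' j : U))).2 ⟨Pi.single j 1, ?_⟩ Q ((hset Q).1 hQ)
    rw [Finset.sum_eq_single j]
    · rw [Pi.single_eq_same, map_one, one_mul]
    · intro i _ hij
      rw [Pi.single_eq_of_ne hij, map_zero, zero_mul]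
    · intro hj
      exact absurd (Finset.mem_univ j) hj
  · intro Q Q' hQ hQ' hz hc
    obtain ⟨P₀, hP₀⟩ := h.ffk.exists_zero_sub 0
    rw [map_zero, sub_zero] at hP₀
    refine eq_of_common h.ffk (ψ₂ M.x') (fun j => ψ₂ (M.b' j : U)) {Q | Q.ord (ψ₂ M.x) ≤ 0}
      (P₀ := P₀) (not_le.2 hP₀) (fun f hf => ?_) ((hset Q).1 hQ) ((hset Q').1 hQ') hz hc
    obtain ⟨p, hp⟩ := (hchart' f).1 hf
    exact ⟨p, by rw [hp, hx']⟩

/-- **The two charts cover the generic fibre.** -/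
theorem cover (h : IsGR M ψ₁ ψ₂ A π O red r xO) (P : Place K' F') :
    P ∈ TA A π (ψ₁ M.x) ∨ P ∈ TA A π (ψ₁ M.x') := by
  have hx' : ψ₁ M.x' = (ψ₁ M.x)⁻¹ := map_x'_eq M ψ₁
  by_cases h0 : 0 ≤ P.ord (ψ₁ M.x)
  · obtain ⟨c, hc⟩ := exists_valAt_of_resK (h.ffL.resK P) h0
    by_cases hcA : c ∈ A
    · exact Or.inl ⟨π ⟨c, hcA⟩, ⟨c, hcA⟩, rfl, hc⟩
    · have hc0 : c ≠ 0 := by
        rintro rfl
        exact hcA A.zero_mem
      have hinv : c⁻¹ ∈ A := (A.mem_or_inv_mem c).resolve_left hcA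
      refine Or.inr ⟨π ⟨c⁻¹, hinv⟩, ⟨c⁻¹, hinv⟩, rfl, ?_⟩
      rw [hx']
      exact hc.inv hc0
  · refine Or.inr ⟨0, EvK.of_lt_one ?_⟩
    have hX0 : ψ₁ M.x ≠ 0 := by
      intro hX
      rw [hX, Place.ord_zero] at h0
      exact h0 le_rfl
    have hX'0 : ψ₁ M.x' ≠ 0 := by rw [hx']; exact inv_ne_zero hX0
    rw [adicValuation_lt_one_iff P hX'0, hx', Place.ord_inv]
    omega

end IsGR

end GRout

/-! ### Global statements: equivariance, base change, retraction -/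

section Global

variable {Λ U : Type*} [CommRing Λ] [CommRing U] [Algebra Λ U] {n : ℕ}
variable {K' F' k Ft : Type*} [Field K'] [Field F'] [Algebra K' F'] [Field k] [Field Ft]
  [Algebra k Ft]
variable {M : GR.Model Λ U n} {ψ₁ : U →+* F'} {ψ₂ : U →+* Ft} {A : ValuationSubring K'}
  {π : A →+* k} {O : ValuationSubring F'} {red : O →+* Ft} {r : Place K' F' → Place k Ft}
  {xO : Oˣ}

namespace IsGR

/-- The finite chart as a `Centre.IsChart`. -/
theorem isChart (h : IsGR M ψ₁ ψ₂ A π O red r xO)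
    (hchart : ∀ f : Ft, (∀ v : Place k Ft, 0 ≤ v.ord (ψ₂ M.x) → 0 ≤ v.ord f) ↔
      ∃ p : Fin n → k[X], f = ∑ j, aeval (ψ₂ M.x) (p j) * ψ₂ (M.b j : U)) :
    IsChart A π O red r (SB ψ₁ O M.B) (TA A π (ψ₁ M.x)) {Q | 0 ≤ Q.ord (ψ₂ M.x)} :=
  (h.chart hchart).isChart O red h.redU

/-- The chart at infinity as a `Centre.IsChart`. -/
theorem isChart' (h : IsGR M ψ₁ ψ₂ A π O red r xO)
    (hchart' : ∀ f : Ft, (∀ v : Place k Ft, v.ord (ψ₂ M.x) ≤ 0 → 0 ≤ v.ord f) ↔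
      ∃ p : Fin n → k[X], f = ∑ j, aeval (ψ₂ M.x)⁻¹ (p j) * ψ₂ (M.b' j : U)) :
    IsChart A π O red r (SB ψ₁ O M.B') (TA A π (ψ₁ M.x')) {Q | 0 ≤ Q.ord (ψ₂ M.x')} :=
  (h.chart' hchart').isChart O red h.redU

/-- **(c) Equivariance of the reduction of places.**  A semilinear automorphism `g` of the
generic fibre fixing the image of the model, preserving `A` and inducing on the residue field the
base automorphism of a semilinear automorphism `gt` of the special fibre fixing the image of the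
model, commutes with `r`. -/
theorem r_smul (h : IsGR M ψ₁ ψ₂ A π O red r xO)
    (hchart : ∀ f : Ft, (∀ v : Place k Ft, 0 ≤ v.ord (ψ₂ M.x) → 0 ≤ v.ord f) ↔
      ∃ p : Fin n → k[X], f = ∑ j, aeval (ψ₂ M.x) (p j) * ψ₂ (M.b j : U))
    (hchart' : ∀ f : Ft, (∀ v : Place k Ft, v.ord (ψ₂ M.x) ≤ 0 → 0 ≤ v.ord f) ↔
      ∃ p : Fin n → k[X], f = ∑ j, aeval (ψ₂ M.x)⁻¹ (p j) * ψ₂ (M.b' j : U))
    (g : SemilinearAut K' F') (gt : SemilinearAut k Ft)
    (hA : ∀ a : A, SemilinearAut.baseAut g (a : K') ∈ A)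
    (hπ : ∀ a : A, π ⟨SemilinearAut.baseAut g (a : K'), hA a⟩ = SemilinearAut.baseAut gt (π a))
    (hg : ∀ u : U, g • ψ₁ u = ψ₁ u) (hgt : ∀ u : U, gt • ψ₂ u = ψ₂ u) (P : Place K' F') :
    r (g • P) = gt • r P := by
  rcases h.cover P with ⟨γ₀, hP⟩ | ⟨γ₀, hP⟩
  · exact (h.chart hchart).smul g gt hA hπ hg hgt hP
  · exact (h.chart' hchart').smul g gt hA hπ hg hgt hP

/-- **(R4) The retraction** for the constant instance: if the special fibre `Ft/k` sits inside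
the generic fibre (`j : k → K'` with values in `A` and `π ∘ j = id`, `ι : Ft → F'` with
`ψ₁ = ι ∘ ψ₂`) and `e` is a map of places preserving values, then `r ∘ e = id`. -/
theorem r_retract (h : IsGR M ψ₁ ψ₂ A π O red r xO)
    (hchart : ∀ f : Ft, (∀ v : Place k Ft, 0 ≤ v.ord (ψ₂ M.x) → 0 ≤ v.ord f) ↔
      ∃ p : Fin n → k[X], f = ∑ j, aeval (ψ₂ M.x) (p j) * ψ₂ (M.b j : U))
    (hchart' : ∀ f : Ft, (∀ v : Place k Ft, v.ord (ψ₂ M.x) ≤ 0 → 0 ≤ v.ord f) ↔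
      ∃ p : Fin n → k[X], f = ∑ j, aeval (ψ₂ M.x)⁻¹ (p j) * ψ₂ (M.b' j : U))
    (j : k →+* K') (ι : Ft →+* F') (e : Place k Ft → Place K' F')
    (hjA : ∀ γ : k, j γ ∈ A) (hjπ : ∀ γ : k, π ⟨j γ, hjA γ⟩ = γ)
    (he : ∀ (Q : Place k Ft) (f : Ft) (γ : k), ValAt Q f γ → ValAt (e Q) (ι f) (j γ))
    (hι : ∀ u : U, ψ₁ u = ι (ψ₂ u)) (Q : Place k Ft) : r (e Q) = Q := by
  by_cases hQ : 0 ≤ Q.ord (ψ₂ M.x)
  · exact (h.chart hchart).retract j ι e hjA hjπ he hι hQ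
  · refine (h.chart' hchart').retract j ι e hjA hjπ he hι ?_
    show 0 ≤ Q.ord (ψ₂ M.x')
    rw [map_x'_eq M ψ₂, Place.ord_inv]
    omega

end IsGR

/-- **(a) The base-change square for places.**  Two reductions of the SAME model `M` (e.g. over
`(K, A)` and over `(Ω, A_Ω)`), maps of constants `j`, `jt`, of function fields `ι`, `ιt` and of
places `e`, `et` preserving values: `r' (e P) = et (r P)`.  Only the charts of the target
reduction are needed. -/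
theorem IsGR.r_comm {K'' F'' k'' Ft'' : Type*} [Field K''] [Field F''] [Algebra K'' F'']
    [Field k''] [Field Ft''] [Algebra k'' Ft'']
    {ψ₁' : U →+* F''} {ψ₂' : U →+* Ft''} {A' : ValuationSubring K''} {π' : A' →+* k''}
    {O' : ValuationSubring F''} {red' : O' →+* Ft''} {r' : Place K'' F'' → Place k'' Ft''}
    {xO' : O'ˣ}
    (h : IsGR M ψ₁ ψ₂ A π O red r xO) (h' : IsGR M ψ₁' ψ₂' A' π' O' red' r' xO')
    (hchart : ∀ f : Ft'', (∀ v : Place k'' Ft'', 0 ≤ v.ord (ψ₂' M.x) → 0 ≤ v.ord f) ↔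
      ∃ p : Fin n → k''[X], f = ∑ j, aeval (ψ₂' M.x) (p j) * ψ₂' (M.b j : U))
    (hchart' : ∀ f : Ft'', (∀ v : Place k'' Ft'', v.ord (ψ₂' M.x) ≤ 0 → 0 ≤ v.ord f) ↔
      ∃ p : Fin n → k''[X], f = ∑ j, aeval (ψ₂' M.x)⁻¹ (p j) * ψ₂' (M.b' j : U))
    (j : K' →+* K'') (jt : k →+* k'') (ι : F' →+* F'') (ιt : Ft →+* Ft'')
    (e : Place K' F' → Place K'' F'') (et : Place k Ft → Place k'' Ft'')
    (hjA : ∀ a : A, j (a : K') ∈ A')
    (hjπ : ∀ a : A, π' ⟨j (a : K'), hjA a⟩ = jt (π a))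
    (he : ∀ (P : Place K' F') (f : F') (a : K'), ValAt P f a → ValAt (e P) (ι f) (j a))
    (het : ∀ (Q : Place k Ft) (f : Ft) (γ : k), ValAt Q f γ → ValAt (et Q) (ιt f) (jt γ))
    (hι : ∀ u : U, ψ₁' u = ι (ψ₁ u)) (hιt : ∀ u : U, ψ₂' u = ιt (ψ₂ u)) (P : Place K' F') :
    r' (e P) = et (r P) := by
  rcases h.cover P with ⟨γ₀, hP⟩ | ⟨γ₀, hP⟩
  · exact (h'.chart hchart).comm h.ev j jt ι ιt e et hjA hjπ he het hι hιt hP
  · exact (h'.chart' hchart').comm h.ev' j jt ι ιt e et hjA hjπ he het hι hιt hP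

end Global

/-! ### `Pic0`-level statements (the hypotheses of the top seam) -/

section Pic

variable {Λ U : Type*} [CommRing Λ] [CommRing U] [Algebra Λ U] {n : ℕ}
variable {K' F' k Ft : Type*} [Field K'] [Field F'] [Algebra K' F'] [Field k] [Field Ft]
  [Algebra k Ft]
variable {M : GR.Model Λ U n} {ψ₁ : U →+* F'} {ψ₂ : U →+* Ft} {A : ValuationSubring K'}
  {π : A →+* k} {O : ValuationSubring F'} {red : O →+* Ft} {r : Place K' F' → Place k Ft}
  {xO : Oˣ}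

namespace IsGR

/-- The reduction homomorphism of a reduction. -/
def rho [IsAlgClosed K'] [IsAlgClosed k] (h : IsGR M ψ₁ ψ₂ A π O red r xO)
    (hbad : ∃ S₀ : Finset (Place k Ft), ∀ Q ∉ S₀, 0 ≤ Q.ord (ψ₂ M.x) ∧ ∀ γ : k,
      0 < Q.ord (ψ₂ M.x - algebraMap k Ft γ) → Q.ord (ψ₂ M.x - algebraMap k Ft γ) = 1) :
    Pic0 K' F' →+ Pic0 k Ft :=
  (h.goodRed hbad).rho

theorem degL (h : IsGR M ψ₁ ψ₂ A π O red r xO) (P : Place K' F') : P.deg = 1 :=
  h.ffL.deg_eq_one P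

theorem degk (h : IsGR M ψ₁ ψ₂ A π O red r xO) (Q : Place k Ft) : Q.deg = 1 :=
  h.ffk.deg_eq_one Q

theorem rho_mk [IsAlgClosed K'] [IsAlgClosed k] (h : IsGR M ψ₁ ψ₂ A π O red r xO)
    (hbad : ∃ S₀ : Finset (Place k Ft), ∀ Q ∉ S₀, 0 ≤ Q.ord (ψ₂ M.x) ∧ ∀ γ : k,
      0 < Q.ord (ψ₂ M.x - algebraMap k Ft γ) → Q.ord (ψ₂ M.x - algebraMap k Ft γ) = 1)
    (D : Divisor.degZero (K := K') (F := F')) :
    h.rho hbad (Pic0.mk D) = Pic0.mk (redDegZero r h.degL h.degk D) := rfl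

theorem rho_surjective [IsAlgClosed K'] [IsAlgClosed k] (h : IsGR M ψ₁ ψ₂ A π O red r xO)
    (hbad : ∃ S₀ : Finset (Place k Ft), ∀ Q ∉ S₀, 0 ≤ Q.ord (ψ₂ M.x) ∧ ∀ γ : k,
      0 < Q.ord (ψ₂ M.x - algebraMap k Ft γ) → Q.ord (ψ₂ M.x - algebraMap k Ft γ) = 1) :
    Function.Surjective (h.rho hbad) :=
  (h.goodRed hbad).rho_surjective

/-- `hρK_inj` of the top seam: the reduction is injective on `ℓ`-primary torsion, `ℓ` invertible
on the special fibre. -/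
theorem rho_eq_zero_of_pow [IsAlgClosed K'] [IsAlgClosed k]
    (h : IsGR M ψ₁ ψ₂ A π O red r xO)
    (hbad : ∃ S₀ : Finset (Place k Ft), ∀ Q ∉ S₀, 0 ≤ Q.ord (ψ₂ M.x) ∧ ∀ γ : k,
      0 < Q.ord (ψ₂ M.x - algebraMap k Ft γ) → Q.ord (ψ₂ M.x - algebraMap k Ft γ) = 1)
    {ℓ : ℕ} (hℓ : (ℓ : Ft) ≠ 0) (c : Pic0 K' F')
    (hc : ∃ m : ℕ, ℓ ^ m • c = 0) (hρ : h.rho hbad c = 0) : c = 0 := by
  obtain ⟨m, hm⟩ := hc
  have hm' : ((ℓ ^ m : ℕ) : Ft) ≠ 0 := by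
    rw [Nat.cast_pow]
    exact pow_ne_zero _ hℓ
  refine (h.goodRed hbad).eq_zero_of_rho_eq_zero hm' c ?_ hρ
  rw [natCast_zsmul]
  exact hm

/-- `hρ0_inj` of the top seam. -/
theorem rho_eq_zero_of_smul [IsAlgClosed K'] [IsAlgClosed k]
    (h : IsGR M ψ₁ ψ₂ A π O red r xO)
    (hbad : ∃ S₀ : Finset (Place k Ft), ∀ Q ∉ S₀, 0 ≤ Q.ord (ψ₂ M.x) ∧ ∀ γ : k,
      0 < Q.ord (ψ₂ M.x - algebraMap k Ft γ) → Q.ord (ψ₂ M.x - algebraMap k Ft γ) = 1)
    {ℓ : ℕ} (hℓ : (ℓ : Ft) ≠ 0) (c : Pic0 K' F')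
    (hc : ℓ • c = 0) (hρ : h.rho hbad c = 0) : c = 0 := by
  refine (h.goodRed hbad).eq_zero_of_rho_eq_zero hℓ c ?_ hρ
  rw [natCast_zsmul]
  exact hc

/-- **(c) on `Pic0`.** -/
theorem rho_smul [IsAlgClosed K'] [IsAlgClosed k] (h : IsGR M ψ₁ ψ₂ A π O red r xO)
    (hbad : ∃ S₀ : Finset (Place k Ft), ∀ Q ∉ S₀, 0 ≤ Q.ord (ψ₂ M.x) ∧ ∀ γ : k,
      0 < Q.ord (ψ₂ M.x - algebraMap k Ft γ) → Q.ord (ψ₂ M.x - algebraMap k Ft γ) = 1)
    (hchart : ∀ f : Ft, (∀ v : Place k Ft, 0 ≤ v.ord (ψ₂ M.x) → 0 ≤ v.ord f) ↔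
      ∃ p : Fin n → k[X], f = ∑ j, aeval (ψ₂ M.x) (p j) * ψ₂ (M.b j : U))
    (hchart' : ∀ f : Ft, (∀ v : Place k Ft, v.ord (ψ₂ M.x) ≤ 0 → 0 ≤ v.ord f) ↔
      ∃ p : Fin n → k[X], f = ∑ j, aeval (ψ₂ M.x)⁻¹ (p j) * ψ₂ (M.b' j : U))
    (g : SemilinearAut K' F') (gt : SemilinearAut k Ft)
    (hA : ∀ a : A, SemilinearAut.baseAut g (a : K') ∈ A)
    (hπ : ∀ a : A, π ⟨SemilinearAut.baseAut g (a : K'), hA a⟩ = SemilinearAut.baseAut gt (π a))
    (hg : ∀ u : U, g • ψ₁ u = ψ₁ u) (hgt : ∀ u : U, gt • ψ₂ u = ψ₂ u) (c : Pic0 K' F') :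
    h.rho hbad (g • c) = gt • h.rho hbad c :=
  (h.goodRed hbad).rho_smul g gt (h.r_smul hchart hchart' g gt hA hπ hg hgt) c

/-- **(R4) on `Pic0`** (`hρ0β` of the top seam): the reduction of the constant instance is a
retraction of the base change `bc`. -/
theorem rho_retract [IsAlgClosed K'] [IsAlgClosed k] (h : IsGR M ψ₁ ψ₂ A π O red r xO)
    (hbad : ∃ S₀ : Finset (Place k Ft), ∀ Q ∉ S₀, 0 ≤ Q.ord (ψ₂ M.x) ∧ ∀ γ : k,
      0 < Q.ord (ψ₂ M.x - algebraMap k Ft γ) → Q.ord (ψ₂ M.x - algebraMap k Ft γ) = 1)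
    (hchart : ∀ f : Ft, (∀ v : Place k Ft, 0 ≤ v.ord (ψ₂ M.x) → 0 ≤ v.ord f) ↔
      ∃ p : Fin n → k[X], f = ∑ j, aeval (ψ₂ M.x) (p j) * ψ₂ (M.b j : U))
    (hchart' : ∀ f : Ft, (∀ v : Place k Ft, v.ord (ψ₂ M.x) ≤ 0 → 0 ≤ v.ord f) ↔
      ∃ p : Fin n → k[X], f = ∑ j, aeval (ψ₂ M.x)⁻¹ (p j) * ψ₂ (M.b' j : U))
    (j : k →+* K') (ι : Ft →+* F') (e : Place k Ft → Place K' F')
    (hjA : ∀ γ : k, j γ ∈ A) (hjπ : ∀ γ : k, π ⟨j γ, hjA γ⟩ = γ)
    (he : ∀ (Q : Place k Ft) (f : Ft) (γ : k), ValAt Q f γ → ValAt (e Q) (ι f) (j γ))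
    (hι : ∀ u : U, ψ₁ u = ι (ψ₂ u))
    (bc : Pic0 k Ft →+ Pic0 K' F')
    (hbc : ∀ D : Divisor.degZero (K := k) (F := Ft), ∃ hD,
      bc (Pic0.mk D) = Pic0.mk ⟨Finsupp.mapDomain e (D : Divisor k Ft), hD⟩)
    (c : Pic0 k Ft) : h.rho hbad (bc c) = c := by
  obtain ⟨D, rfl⟩ := Pic0.mk_surjective c
  obtain ⟨hD, hbcD⟩ := hbc D
  rw [hbcD, rho_mk]
  refine congrArg Pic0.mk (Subtype.ext ?_)
  rw [coe_redDegZero]
  show Finsupp.mapDomain r (Finsupp.mapDomain e (D : Divisor k Ft)) = (D : Divisor k Ft)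
  have hre : r ∘ e = id := funext (h.r_retract hchart hchart' j ι e hjA hjπ he hι)
  rw [← Finsupp.mapDomain_comp, hre, Finsupp.mapDomain_id]

end IsGR

/-- **(a) on `Pic0`** (`hsq` of the top seam): the reductions of two realisations of the same
model commute with the base changes `bc` (generic fibres) and `bct` (special fibres). -/
theorem IsGR.rho_comm {K'' F'' k'' Ft'' : Type*} [Field K''] [Field F''] [Algebra K'' F'']
    [Field k''] [Field Ft''] [Algebra k'' Ft'']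
    [IsAlgClosed K'] [IsAlgClosed k] [IsAlgClosed K''] [IsAlgClosed k'']
    {ψ₁' : U →+* F''} {ψ₂' : U →+* Ft''} {A' : ValuationSubring K''} {π' : A' →+* k''}
    {O' : ValuationSubring F''} {red' : O' →+* Ft''} {r' : Place K'' F'' → Place k'' Ft''}
    {xO' : O'ˣ}
    (h : IsGR M ψ₁ ψ₂ A π O red r xO) (h' : IsGR M ψ₁' ψ₂' A' π' O' red' r' xO')
    (hbad : ∃ S₀ : Finset (Place k Ft), ∀ Q ∉ S₀, 0 ≤ Q.ord (ψ₂ M.x) ∧ ∀ γ : k,
      0 < Q.ord (ψ₂ M.x - algebraMap k Ft γ) → Q.ord (ψ₂ M.x - algebraMap k Ft γ) = 1)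
    (hbad' : ∃ S₀ : Finset (Place k'' Ft''), ∀ Q ∉ S₀, 0 ≤ Q.ord (ψ₂' M.x) ∧ ∀ γ : k'',
      0 < Q.ord (ψ₂' M.x - algebraMap k'' Ft'' γ) →
        Q.ord (ψ₂' M.x - algebraMap k'' Ft'' γ) = 1)
    (hchart : ∀ f : Ft'', (∀ v : Place k'' Ft'', 0 ≤ v.ord (ψ₂' M.x) → 0 ≤ v.ord f) ↔
      ∃ p : Fin n → k''[X], f = ∑ j, aeval (ψ₂' M.x) (p j) * ψ₂' (M.b j : U))
    (hchart' : ∀ f : Ft'', (∀ v : Place k'' Ft'', v.ord (ψ₂' M.x) ≤ 0 → 0 ≤ v.ord f) ↔
      ∃ p : Fin n → k''[X], f = ∑ j, aeval (ψ₂' M.x)⁻¹ (p j) * ψ₂' (M.b' j : U))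
    (j : K' →+* K'') (jt : k →+* k'') (ι : F' →+* F'') (ιt : Ft →+* Ft'')
    (e : Place K' F' → Place K'' F'') (et : Place k Ft → Place k'' Ft'')
    (hjA : ∀ a : A, j (a : K') ∈ A')
    (hjπ : ∀ a : A, π' ⟨j (a : K'), hjA a⟩ = jt (π a))
    (he : ∀ (P : Place K' F') (f : F') (a : K'), ValAt P f a → ValAt (e P) (ι f) (j a))
    (het : ∀ (Q : Place k Ft) (f : Ft) (γ : k), ValAt Q f γ → ValAt (et Q) (ιt f) (jt γ))
    (hι : ∀ u : U, ψ₁' u = ι (ψ₁ u)) (hιt : ∀ u : U, ψ₂' u = ιt (ψ₂ u))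
    (bc : Pic0 K' F' →+ Pic0 K'' F'') (bct : Pic0 k Ft →+ Pic0 k'' Ft'')
    (hbc : ∀ D : Divisor.degZero (K := K') (F := F'), ∃ hD,
      bc (Pic0.mk D) = Pic0.mk ⟨Finsupp.mapDomain e (D : Divisor K' F'), hD⟩)
    (hbct : ∀ D : Divisor.degZero (K := k) (F := Ft), ∃ hD,
      bct (Pic0.mk D) = Pic0.mk ⟨Finsupp.mapDomain et (D : Divisor k Ft), hD⟩)
    (c : Pic0 K' F') : h'.rho hbad' (bc c) = bct (h.rho hbad c) := by
  obtain ⟨D, rfl⟩ := Pic0.mk_surjective c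
  obtain ⟨hD, hbcD⟩ := hbc D
  obtain ⟨hDt, hbctD⟩ := hbct (redDegZero r h.degL h.degk D)
  rw [hbcD, IsGR.rho_mk, IsGR.rho_mk, hbctD]
  refine congrArg Pic0.mk (Subtype.ext ?_)
  show Finsupp.mapDomain r' (Finsupp.mapDomain e (D : Divisor K' F'))
    = Finsupp.mapDomain et (Finsupp.mapDomain r (D : Divisor K' F'))
  have hsq : r' ∘ e = et ∘ r :=
    funext (IsGR.r_comm h h' hchart hchart' j jt ι ιt e et hjA hjπ he het hι hιt)
  rw [← Finsupp.mapDomain_comp, ← Finsupp.mapDomain_comp, hsq]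

end Pic

end Fermat.Agent.S27P.Inj.OfGR
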